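/-
Programme DS (S48, Deligne–Serre), brick H1a (helper92): lifting idempotents along the residue map of a
local ring in which every monic polynomial splits into linear factors.

Main results (namespace `Fermat.Agent.DS.LiftV.IdemLift`):
* `MonicSplits R` : every monic polynomial over `R` is a product of linear factors `X - C r`.
* `exists_poly_idempotent` : if `a` (in any `R`-algebra) is killed by a monic polynomial, there is
  `Q : R[X]` with `Q(0) = 0`, `Q(1) = 1` and `Q(a)` idempotent.
* `aeval_of_isIdempotentElem` : `Q(b) = b` for idempotent `b` when `Q(0) = 0`, `Q(1) = 1`.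
-/
import Mathlib

set_option autoImplicit false

open Polynomial

namespace Fermat.Agent.DS.LiftV.IdemLift

/-- Every monic polynomial over `R` is a product of linear factors. -/
def MonicSplits (R : Type*) [CommRing R] : Prop :=
  ∀ P : R[X], P.Monic → ∃ s : Multiset R, P = (s.map fun r => X - C r).prod

section coprime

variable {R : Type*} [CommRing R]

theorem isCoprime_X_sub_C_of_isUnit_sub {r t : R} (h : IsUnit (t - r)) :
    IsCoprime (X - C r : R[X]) (X - C t) := by
  obtain ⟨u, hu⟩ := h
  refine ⟨C (↑u⁻¹ : R), -C (↑u⁻¹ : R), ?_⟩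
  have h1 : (C (↑u⁻¹ : R) : R[X]) * C (t - r) = 1 := by
    rw [← C_mul, ← hu, Units.inv_mul, C_1]
  calc C (↑u⁻¹ : R) * (X - C r) + -C (↑u⁻¹ : R) * (X - C t)
      = C (↑u⁻¹ : R) * (C t - C r) := by ring
    _ = C (↑u⁻¹ : R) * C (t - r) := by rw [C_sub]
    _ = 1 := h1

theorem isCoprime_multiset_prod_left {A : Type*} [CommRing A] {s : Multiset A} {x : A}
    (h : ∀ a ∈ s, IsCoprime a x) : IsCoprime s.prod x := by
  induction s using Multiset.induction_on with
  | empty => simpa using isCoprime_one_left
  | cons a s ih =>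
    rw [Multiset.prod_cons]
    exact IsCoprime.mul_left (h a (Multiset.mem_cons_self a s))
      (ih fun b hb => h b (Multiset.mem_cons_of_mem hb))

theorem isCoprime_multiset_prod_right {A : Type*} [CommRing A] {s : Multiset A} {x : A}
    (h : ∀ a ∈ s, IsCoprime x a) : IsCoprime x s.prod :=
  (isCoprime_multiset_prod_left fun a ha => (h a ha).symm).symm

end coprime

section idem

variable {R : Type*} [CommRing R] [IsLocalRing R]

/-- Key polynomial construction. -/
theorem exists_poly_of_multiset (s : Multiset R) :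
    ∃ Q W : R[X], Q.eval 0 = 0 ∧ Q.eval 1 = 1 ∧
      Q * Q - Q = W * (X * (X - 1) * (s.map fun r => X - C r).prod) := by
  classical
  -- the roots reducing to `1`, and the others
  set s₁ : Multiset R := s.filter fun r => IsLocalRing.residue R r = 1 with hs₁
  set s₀ : Multiset R := s.filter fun r => ¬ IsLocalRing.residue R r = 1 with hs₀
  have hs : s₁ + s₀ = s := Multiset.filter_add_not _ s
  set P₁ : R[X] := (X - C 1) * (s₁.map fun r => X - C r).prod with hP₁
  set P₀ : R[X] := (X - C 0) * (s₀.map fun r => X - C r).prod with hP₀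
  -- units
  have hunit : ∀ r t : R, ¬ IsLocalRing.residue R r = 1 → IsLocalRing.residue R t = 1 →
      IsUnit (t - r) := by
    intro r t hr ht
    by_contra hnu
    have hmem : t - r ∈ IsLocalRing.maximalIdeal R := (IsLocalRing.mem_maximalIdeal _).mpr hnu
    have h0 : IsLocalRing.residue R (t - r) = 0 := (IsLocalRing.residue_eq_zero_iff _).mpr hmem
    rw [map_sub, ht, sub_eq_zero] at h0
    exact hr h0.symm
  have hres0 : ¬ IsLocalRing.residue R (0 : R) = 1 := by
    rw [map_zero]; exact zero_ne_one
  have hres1 : IsLocalRing.residue R (1 : R) = 1 := map_one _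
  -- coprimality
  have hcop : IsCoprime P₀ P₁ := by
    have key : ∀ r t : R, ¬ IsLocalRing.residue R r = 1 → IsLocalRing.residue R t = 1 →
        IsCoprime (X - C r : R[X]) (X - C t) := fun r t hr ht =>
      isCoprime_X_sub_C_of_isUnit_sub (hunit r t hr ht)
    have hright : ∀ r : R, ¬ IsLocalRing.residue R r = 1 → IsCoprime (X - C r : R[X]) P₁ := by
      intro r hr
      refine IsCoprime.mul_right (key r 1 hr hres1) ?_
      refine isCoprime_multiset_prod_right ?_
      intro a ha
      obtain ⟨t, ht, rfl⟩ := Multiset.mem_map.mp ha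
      exact key r t hr (Multiset.mem_filter.mp ht).2
    refine IsCoprime.mul_left (hright 0 hres0) ?_
    refine isCoprime_multiset_prod_left ?_
    intro a ha
    obtain ⟨r, hr, rfl⟩ := Multiset.mem_map.mp ha
    exact hright r (Multiset.mem_filter.mp hr).2
  obtain ⟨U, V, hUV⟩ := hcop
  refine ⟨U * P₀, -(U * V), ?_, ?_, ?_⟩
  · simp [hP₀]
  · have h1 : (U * P₀).eval 1 = (1 - V * P₁).eval 1 := by
      rw [← hUV]; ring_nf
    rw [h1]; simp [hP₁]
  · have hprod : P₀ * P₁ = X * (X - 1) * (s.map fun r => X - C r).prod := by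
      rw [← hs, Multiset.map_add, Multiset.prod_add, hP₀, hP₁]
      simp only [C_0, sub_zero, C_1]
      ring
    have hV : V * P₁ = 1 - U * P₀ := by rw [← hUV]; ring
    calc U * P₀ * (U * P₀) - U * P₀ = -(U * P₀) * (1 - U * P₀) := by ring
      _ = -(U * P₀) * (V * P₁) := by rw [hV]
      _ = -(U * V) * (P₀ * P₁) := by ring
      _ = -(U * V) * (X * (X - 1) * (s.map fun r => X - C r).prod) := by rw [hprod]

/-- **Idempotent from an integral element.** -/
theorem exists_poly_idempotent (hR : MonicSplits R) {Λ : Type*} [Ring Λ] [Algebra R Λ] (a : Λ)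
    (P : R[X]) (hP : P.Monic) (ha : aeval a P = 0) :
    ∃ Q : R[X], Q.eval 0 = 0 ∧ Q.eval 1 = 1 ∧ IsIdempotentElem (aeval a Q) := by
  obtain ⟨s, hs⟩ := hR P hP
  obtain ⟨Q, W, h0, h1, hQ⟩ := exists_poly_of_multiset s
  refine ⟨Q, h0, h1, ?_⟩
  have h := congrArg (aeval a) hQ
  rw [← hs] at h
  simp only [map_sub, map_mul, ha, mul_zero] at h
  exact sub_eq_zero.mp h

end idem

section evalIdem

variable {R : Type*} [CommRing R]

/-- For an idempotent `b`, `Q(b) = Q(0) • (1 - b) + Q(1) • b`. -/
theorem aeval_idempotent {Λ : Type*} [Ring Λ] [Algebra R Λ] {b : Λ} (hb : IsIdempotentElem b)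
    (Q : R[X]) : aeval b Q = Q.eval 0 • (1 - b) + Q.eval 1 • b := by
  induction Q using Polynomial.induction_on' with
  | add p q hp hq =>
    rw [map_add, hp, hq, eval_add, eval_add, add_smul, add_smul]; abel
  | monomial n c =>
    rcases n with _ | n
    · simp only [monomial_zero_left, aeval_C, eval_C, Algebra.algebraMap_eq_smul_one]
      rw [← smul_add, sub_add_cancel]
    · have hpow : b ^ (n + 1) = b := hb.pow_succ_eq n
      rw [aeval_monomial, hpow, eval_monomial, eval_monomial, zero_pow (Nat.succ_ne_zero n),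
        mul_zero, zero_smul, zero_add, one_pow, mul_one, Algebra.smul_def]

theorem aeval_of_isIdempotentElem {Λ : Type*} [Ring Λ] [Algebra R Λ] {b : Λ}
    (hb : IsIdempotentElem b) {Q : R[X]} (h0 : Q.eval 0 = 0) (h1 : Q.eval 1 = 1) :
    aeval b Q = b := by
  rw [aeval_idempotent hb, h0, h1, zero_smul, one_smul, zero_add]

end evalIdem

end Fermat.Agent.DS.LiftV.IdemLift
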