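/-
Programme DS (S48, Deligne–Serre), brick H1c (helper92): **lifting representations of a finite group of
invertible order** along the residue map of a local ring `R` in which every monic polynomial splits
(e.g. a valuation subring of an algebraically closed field, see `ValSplit`).

Main result: `Fermat.Agent.DS.LiftV.RepLift.exists_lift`:
for `ρbar : G →* Matrix (Fin d) (Fin d) (ResidueField R)` with `|G|` a unit of `R` there is
`ρ : G →* Matrix (Fin d) (Fin d) R` with `(ρ g).map (residue R) = ρbar g` for all `g`.

Method: the averaging idempotent `Ā = |G|⁻¹ ∑ ρbar(x y⁻¹)` on `k^(G × d)` cuts out a copy of `ρbar` inside the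
regular representation; lift it to an idempotent `E`, polynomial in an arbitrary lift `A` of `Ā`
(`IdemLift.exists_poly_idempotent`), which still commutes with right translations; the image of `E`
is free with basis `E (lifted columns)`, by Nakayama.
-/
import Mathlib
import Fermat.Agent.DS.LiftV.IdemLift

set_option autoImplicit false
set_option linter.unusedSectionVars false
set_option linter.unusedSimpArgs false

open Polynomial Matrix Module

namespace Fermat.Agent.DS.LiftV.RepLift

open Fermat.Agent.DS.LiftV.IdemLift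

section generic

variable {S : Type*} [CommRing S] {G : Type*} [Group G] [Fintype G] {d : ℕ}

/-- Simultaneous right translation on the index set `G × Fin d`. -/
def sig (g : G) : (G × Fin d) ≃ (G × Fin d) := (Equiv.mulRight g).prodCongr (Equiv.refl _)

@[simp] theorem sig_apply (g : G) (p : G × Fin d) : sig g p = (p.1 * g, p.2) := rfl

/-- The averaging matrix. -/
def avgMat (c : S) (r : G → Matrix (Fin d) (Fin d) S) : Matrix (G × Fin d) (G × Fin d) S :=
  fun p q => c * r (p.1 * q.1⁻¹) p.2 q.2

/-- The column vectors `x ↦ r(x) e_j`. -/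
def colVec (r : G → Matrix (Fin d) (Fin d) S) (j : Fin d) : G × Fin d → S :=
  fun p => r p.1 p.2 j

/-- The coefficient vector of the projection. -/
def piVec (c : S) (r : G → Matrix (Fin d) (Fin d) S) (w : G × Fin d → S) : Fin d → S :=
  fun l => c * ∑ q : G × Fin d, r (q.1⁻¹) l q.2 * w q

theorem avgMat_submatrix_sig (c : S) (r : G → Matrix (Fin d) (Fin d) S) (g : G) :
    (avgMat c r).submatrix (sig g) (sig g) = avgMat c r := by
  ext p q
  have h : p.1 * g * (q.1 * g)⁻¹ = p.1 * q.1⁻¹ := by group
  simp only [submatrix_apply, avgMat, sig_apply, h]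

theorem avgMat_map {S' : Type*} [CommRing S'] (f : S →+* S') (c : S)
    (r : G → Matrix (Fin d) (Fin d) S) :
    (avgMat c r).map f = avgMat (f c) (fun g => (r g).map f) := by
  ext p q
  simp [avgMat]

theorem colVec_map {S' : Type*} [CommRing S'] (f : S →+* S')
    (r : G → Matrix (Fin d) (Fin d) S) (j : Fin d) :
    f ∘ colVec r j = colVec (fun g => (r g).map f) j := by
  ext p
  simp [colVec]

theorem avgMat_mulVec (c : S) (ρ : G →* Matrix (Fin d) (Fin d) S) (w : G × Fin d → S)
    (p : G × Fin d) :
    (avgMat c ρ *ᵥ w) p = ∑ l, ρ p.1 p.2 l * piVec c ρ w l := by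
  simp only [mulVec, dotProduct, avgMat, piVec, map_mul, Matrix.mul_apply]
  simp only [Finset.mul_sum, Finset.sum_mul]
  rw [Finset.sum_comm]
  refine Finset.sum_congr rfl fun l _ => Finset.sum_congr rfl fun q _ => ?_
  ring

theorem piVec_colVec (c : S) (ρ : G →* Matrix (Fin d) (Fin d) S)
    (hc : c * (Fintype.card G : S) = 1) (j l : Fin d) :
    piVec c ρ (colVec ρ j) l = if l = j then 1 else 0 := by
  simp only [piVec, colVec]
  rw [Fintype.sum_prod_type]
  have h1 : ∀ y : G, ∑ i, ρ y⁻¹ l i * ρ y i j = (1 : Matrix (Fin d) (Fin d) S) l j := by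
    intro y
    rw [← Matrix.mul_apply, ← map_mul, inv_mul_cancel, map_one]
  simp only [h1, Finset.sum_const, Finset.card_univ, nsmul_eq_mul]
  rw [← mul_assoc, hc, one_mul, Matrix.one_apply]

theorem avgMat_mulVec_colVec (c : S) (ρ : G →* Matrix (Fin d) (Fin d) S)
    (hc : c * (Fintype.card G : S) = 1) (j : Fin d) :
    avgMat c ρ *ᵥ colVec ρ j = colVec ρ j := by
  ext p
  rw [avgMat_mulVec]
  simp only [piVec_colVec c ρ hc, mul_ite, mul_one, mul_zero, Finset.sum_ite_eq',
    Finset.mem_univ, if_true, colVec]

theorem avgMat_mul_self (c : S) (ρ : G →* Matrix (Fin d) (Fin d) S)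
    (hc : c * (Fintype.card G : S) = 1) :
    avgMat c ρ * avgMat c ρ = avgMat c ρ := by
  ext p q
  simp only [Matrix.mul_apply, avgMat]
  rw [Fintype.sum_prod_type]
  have h1 : ∀ y : G, ∑ i, c * ρ (p.1 * y⁻¹) p.2 i * (c * ρ (y * q.1⁻¹) i q.2) =
      c * c * ρ (p.1 * q.1⁻¹) p.2 q.2 := by
    intro y
    have h2 : ρ (p.1 * q.1⁻¹) = ρ (p.1 * y⁻¹) * ρ (y * q.1⁻¹) := by
      rw [← map_mul]; congr 1; group
    rw [h2, Matrix.mul_apply, Finset.mul_sum]
    refine Finset.sum_congr rfl fun i _ => ?_
    ring
  simp only [h1, Finset.sum_const, Finset.card_univ, nsmul_eq_mul]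
  calc (Fintype.card G : S) * (c * c * ρ (p.1 * q.1⁻¹) p.2 q.2)
      = (c * (Fintype.card G : S)) * (c * ρ (p.1 * q.1⁻¹) p.2 q.2) := by ring
    _ = c * ρ (p.1 * q.1⁻¹) p.2 q.2 := by rw [hc, one_mul]

/-- The subalgebra of matrices invariant under simultaneous right translation. -/
def invSub (S : Type*) [CommRing S] (G : Type*) [Group G] [Fintype G] [DecidableEq G] (d : ℕ) :
    Subalgebra S (Matrix (G × Fin d) (G × Fin d) S) where
  carrier := {B | ∀ g : G, B.submatrix (sig g) (sig g) = B}
  mul_mem' := by
    intro B C hB hC g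
    rw [← submatrix_mul_equiv B C (sig g) (sig g) (sig g), hB g, hC g]
  add_mem' := by
    intro B C hB hC g
    have hB' := hB g
    have hC' := hC g
    ext p q
    have h1 := congrFun (congrFun hB' p) q
    have h2 := congrFun (congrFun hC' p) q
    simp only [submatrix_apply] at h1 h2
    simp only [submatrix_apply, Matrix.add_apply, h1, h2]
  algebraMap_mem' := by
    intro s g
    rw [Matrix.algebraMap_eq_diagonal]
    ext p q
    simp only [submatrix_apply, diagonal_apply, Pi.algebraMap_apply, Algebra.algebraMap_self,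
      RingHom.id_apply, EmbeddingLike.apply_eq_iff_eq]

theorem aeval_submatrix_sig [DecidableEq G] {A : Matrix (G × Fin d) (G × Fin d) S}
    (hA : ∀ g : G, A.submatrix (sig g) (sig g) = A) (Q : S[X]) (g : G) :
    (aeval A Q).submatrix (sig g) (sig g) = aeval A Q := by
  have h : aeval A Q = ((aeval (⟨A, hA⟩ : invSub S G d) Q : invSub S G d) :
      Matrix (G × Fin d) (G × Fin d) S) := by
    rw [Polynomial.aeval_subalgebra_coe]
  rw [h]
  exact (aeval (⟨A, hA⟩ : invSub S G d) Q).2 g

theorem mulVec_comp_sig {B : Matrix (G × Fin d) (G × Fin d) S} (g : G)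
    (hB : B.submatrix (sig g) (sig g) = B) (w : G × Fin d → S) :
    (B *ᵥ w) ∘ sig g = B *ᵥ (w ∘ sig g) := by
  conv_rhs => rw [← hB]
  rw [submatrix_mulVec_equiv]
  congr 2
  ext p
  simp

end generic


section main

open IsLocalRing

variable {R : Type*} [CommRing R] [IsLocalRing R] {G : Type*} [Group G] [Fintype G] {d : ℕ}

/-- **Lifting representations of a finite group of invertible order** (matrix form). -/
theorem exists_lift (hR : MonicSplits R) (hG : IsUnit (Fintype.card G : R))
    (ρbar : G →* Matrix (Fin d) (Fin d) (ResidueField R)) :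
    ∃ ρ : G →* Matrix (Fin d) (Fin d) R, ∀ g, (ρ g).map (residue R) = ρbar g := by
  classical
  obtain ⟨u, hu⟩ := hG
  set c : R := ↑u⁻¹ with hcdef
  have hc : c * (Fintype.card G : R) = 1 := by rw [← hu, Units.inv_mul]
  have hcbar : residue R c * (Fintype.card G : ResidueField R) = 1 := by
    have h := congrArg (residue R) hc
    simpa using h
  -- entrywise lift of `ρbar`
  have hsurj := residue_surjective (R := R)
  choose r0 hr0 using hsurj
  let r : G → Matrix (Fin d) (Fin d) R := fun g => (ρbar g).map r0
  have hr : ∀ g, (r g).map (residue R) = ρbar g := by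
    intro g
    ext i j
    simp [r, hr0]
  have hrfun : (fun g => (r g).map (residue R)) = ρbar := funext hr
  -- the averaging matrices
  set A : Matrix (G × Fin d) (G × Fin d) R := avgMat c r with hAdef
  set Abar : Matrix (G × Fin d) (G × Fin d) (ResidueField R) :=
    avgMat (residue R c) ρbar with hAbardef
  have hAmap : A.map (residue R) = Abar := by
    rw [hAdef, avgMat_map, hrfun]
  have hAbar_idem : IsIdempotentElem Abar := avgMat_mul_self _ ρbar hcbar
  have hAinv : ∀ g : G, A.submatrix (sig g) (sig g) = A := avgMat_submatrix_sig c r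
  -- the idempotent
  obtain ⟨Q, hQ0, hQ1, hE⟩ := exists_poly_idempotent hR A A.charpoly (Matrix.charpoly_monic A)
    (Matrix.aeval_self_charpoly A)
  set E : Matrix (G × Fin d) (G × Fin d) R := aeval A Q with hEdef
  have hEinv : ∀ g : G, E.submatrix (sig g) (sig g) = E := aeval_submatrix_sig hAinv Q
  have hEmap : E.map (residue R) = Abar := by
    have h1 : E.map (residue R) =
        (IsScalarTower.toAlgHom R R (ResidueField R)).mapMatrix E := rfl
    have h2 : (IsScalarTower.toAlgHom R R (ResidueField R)).mapMatrix A = Abar := hAmap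
    rw [h1, hEdef, ← Polynomial.aeval_algHom_apply, h2]
    exact aeval_of_isIdempotentElem hAbar_idem hQ0 hQ1
  -- the module `T = range E`
  set T : Submodule R (G × Fin d → R) := LinearMap.range E.mulVecLin with hT
  have hEE : ∀ w, E *ᵥ (E *ᵥ w) = E *ᵥ w := by
    intro w
    rw [mulVec_mulVec, hE.eq]
  have hfix : ∀ x ∈ T, E *ᵥ x = x := by
    rintro x ⟨w, rfl⟩
    exact hEE w
  let t : Fin d → (G × Fin d → R) := fun j => E *ᵥ colVec r j
  have ht_mem : ∀ j, t j ∈ T := fun j => ⟨colVec r j, rfl⟩
  -- reduction of `t j`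
  have hred : ∀ j p, residue R (t j p) = colVec ρbar j p := by
    intro j p
    show residue R ((E *ᵥ colVec r j) p) = _
    rw [RingHom.map_mulVec, hEmap, colVec_map, hrfun, avgMat_mulVec_colVec _ ρbar hcbar]
  -- linear independence, by evaluating at `(1, l)`
  let Smat : Matrix (Fin d) (Fin d) R := fun l j => t j (1, l)
  have hSmap : Smat.map (residue R) = 1 := by
    ext l j
    show residue R (t j (1, l)) = _
    rw [hred]
    simp only [colVec, map_one]
  have hSdet : IsUnit Smat.det := by
    have h1 : residue R Smat.det = 1 := by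
      rw [RingHom.map_det, RingHom.mapMatrix_apply, hSmap, det_one]
    have h2 : residue R Smat.det ≠ 0 := by rw [h1]; exact one_ne_zero
    exact (residue_ne_zero_iff_isUnit _).mp h2
  have hli : LinearIndependent R t := by
    rw [Fintype.linearIndependent_iff]
    intro cf hcf
    have h0 : Smat *ᵥ cf = 0 := by
      ext l
      have h := congrFun hcf (1, l)
      simp only [Finset.sum_apply, Pi.smul_apply, smul_eq_mul, Pi.zero_apply] at h
      simp only [mulVec, dotProduct, Smat, Pi.zero_apply]
      rw [← h]
      exact Finset.sum_congr rfl fun j _ => mul_comm _ _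
    have h1 : cf = 0 := by
      have h2 : Smat⁻¹ *ᵥ (Smat *ᵥ cf) = cf := by
        rw [mulVec_mulVec, nonsing_inv_mul _ hSdet, one_mulVec]
      rw [← h2, h0, mulVec_zero]
    intro j
    rw [h1]; rfl
  -- spanning, by Nakayama
  set T' : Submodule R (G × Fin d → R) := Submodule.span R (Set.range t) with hT'
  have hT'T : T' ≤ T := Submodule.span_le.mpr (by rintro _ ⟨j, rfl⟩; exact ht_mem j)
  have hTfg : T.FG := by
    rw [hT, LinearMap.range_eq_map]
    exact Submodule.FG.map _ (Module.Finite.fg_top)
  have hnak : T ≤ T' ⊔ maximalIdeal R • T := by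
    intro x hx
    let cbar : Fin d → ResidueField R := piVec (residue R c) ρbar (residue R ∘ x)
    let cf : Fin d → R := fun l => r0 (cbar l)
    let y : G × Fin d → R := x - ∑ l, cf l • t l
    have hyT : y ∈ T :=
      sub_mem hx (Submodule.sum_mem _ fun l _ => Submodule.smul_mem _ _ (ht_mem l))
    have hy0 : ∀ p, residue R (y p) = 0 := by
      intro p
      have hx' : E *ᵥ x = x := hfix x hx
      have h1 : residue R (x p) = ∑ l, ρbar p.1 p.2 l * cbar l := by
        conv_lhs => rw [← hx']
        rw [RingHom.map_mulVec, hEmap, avgMat_mulVec]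
      simp only [y, Pi.sub_apply, Finset.sum_apply, Pi.smul_apply, smul_eq_mul, map_sub,
        map_sum, map_mul, hred, colVec, cf, hr0, h1]
      rw [sub_eq_zero]
      exact Finset.sum_congr rfl fun l _ => mul_comm _ _
    have hy𝔪 : y ∈ maximalIdeal R • T := by
      have hyE : E *ᵥ y = y := hfix y hyT
      have hdecomp : y = ∑ q, y q • Pi.single (M := fun _ => R) q 1 := pi_eq_sum_univ' y
      have h2 : E.mulVecLin y = ∑ q, y q • E.mulVecLin (Pi.single (M := fun _ => R) q 1) := by
        conv_lhs => rw [hdecomp]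
        rw [map_sum]
        exact Finset.sum_congr rfl fun q _ => map_smul _ _ _
      have h3 : E.mulVecLin y = y := hyE
      rw [← h3, h2]
      exact Submodule.sum_mem _ fun q _ =>
        Submodule.smul_mem_smul ((residue_eq_zero_iff _).mp (hy0 q)) ⟨_, rfl⟩
    have hxy : x = ∑ l, cf l • t l + y := by simp [y]
    rw [hxy]
    exact Submodule.add_mem_sup
      (Submodule.sum_mem _ fun l _ => Submodule.smul_mem _ _ (Submodule.subset_span ⟨l, rfl⟩)) hy𝔪
  have hTT' : T ≤ T' :=
    Submodule.le_of_le_smul_of_le_jacobson_bot hTfg (maximalIdeal_le_jacobson ⊥) hnak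
  -- basis of `T`
  let tT : Fin d → T := fun j => ⟨t j, ht_mem j⟩
  have hliT : LinearIndependent R tT := LinearIndependent.of_comp T.subtype hli
  have hspT : ⊤ ≤ Submodule.span R (Set.range tT) := by
    intro x _
    have hx : (x : G × Fin d → R) ∈ Submodule.span R (Set.range t) := hTT' x.2
    have hrange : Set.range t = T.subtype '' Set.range tT := by
      ext v
      constructor
      · rintro ⟨j, rfl⟩
        exact ⟨tT j, ⟨j, rfl⟩, rfl⟩
      · rintro ⟨_, ⟨j, rfl⟩, rfl⟩
        exact ⟨j, rfl⟩
    rw [hrange, ← Submodule.map_span] at hx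
    obtain ⟨z, hz, hzx⟩ := hx
    have hzx' : z = x := Subtype.ext hzx
    rwa [← hzx']
  let b : Basis (Fin d) R T := Basis.mk hliT hspT
  have hb : ∀ j, ((b j : T) : G × Fin d → R) = t j := by
    intro j
    simp only [b, Basis.mk_apply, tT]
  -- the action of `G` on `T` by right translation
  have hstab : ∀ g : G, ∀ x ∈ T, x ∘ sig g ∈ T := by
    rintro g x ⟨w, rfl⟩
    exact ⟨w ∘ sig g, (mulVec_comp_sig g (hEinv g) w).symm⟩
  let tr : G → (T →ₗ[R] T) := fun g =>
    { toFun := fun x => ⟨(x : G × Fin d → R) ∘ sig g, hstab g x x.2⟩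
      map_add' := fun _ _ => rfl
      map_smul' := fun _ _ => rfl }
  have htr_apply : ∀ g (x : T) p, ((tr g x : T) : G × Fin d → R) p = (x : G × Fin d → R) (sig g p) :=
    fun _ _ _ => rfl
  have htr_mul : ∀ g h, tr (g * h) = tr g ∘ₗ tr h := by
    intro g h
    ext x p
    rw [LinearMap.comp_apply, htr_apply, htr_apply, htr_apply]
    simp only [sig_apply, mul_assoc]
  have htr_one : tr 1 = LinearMap.id := by
    ext x p
    rw [htr_apply]
    simp only [sig_apply, mul_one, LinearMap.id_apply]
  let ρ : G →* Matrix (Fin d) (Fin d) R :=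
    { toFun := fun g => LinearMap.toMatrix b b (tr g)
      map_one' := by rw [htr_one, LinearMap.toMatrix_id]
      map_mul' := fun g h => by rw [htr_mul, LinearMap.toMatrix_comp b b b] }
  refine ⟨ρ, fun g => ?_⟩
  ext l j
  have hexp : ((tr g (b j) : T) : G × Fin d → R) = ∑ i, (ρ g) i j • ((b i : T) : G × Fin d → R) := by
    have h := (b.sum_repr (tr g (b j))).symm
    have h' := congrArg (fun z : T => (z : G × Fin d → R)) h
    simp only [Submodule.coe_sum, Submodule.coe_smul] at h'
    rw [h']
    refine Finset.sum_congr rfl fun i _ => ?_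
    show _ = (LinearMap.toMatrix b b (tr g)) i j • _
    rw [LinearMap.toMatrix_apply]
  have hval := congrFun hexp (1, l)
  rw [htr_apply] at hval
  simp only [sig_apply, one_mul, Finset.sum_apply, Pi.smul_apply, smul_eq_mul, hb] at hval
  have hres := congrArg (residue R) hval
  simp only [map_sum, map_mul, hred, colVec, map_one, Matrix.one_apply, mul_ite, mul_one, mul_zero,
    Finset.sum_ite_eq, Finset.mem_univ, if_true] at hres
  rw [Matrix.map_apply]
  exact hres.symm

end main

end Fermat.Agent.DS.LiftV.RepLift
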