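/-
Programme DS (S48, Deligne–Serre), brick H1b (helper92): a valuation subring of an algebraically closed
field is a local ring in which every monic polynomial splits into linear factors
(`IdemLift.MonicSplits`).
-/
import Mathlib
import Fermat.Agent.DS.LiftV.IdemLift

set_option autoImplicit false

open Polynomial

namespace Fermat.Agent.DS.LiftV.ValSplit

open Fermat.Agent.DS.LiftV.IdemLift

theorem monicSplits_valuationSubring {K : Type*} [Field K] [IsAlgClosed K]
    (A : ValuationSubring K) : MonicSplits A := by
  intro P hP
  have hinj : Function.Injective (algebraMap A K) := Subtype.val_injective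
  have hsplit : (P.map (algebraMap A K)).Splits := IsAlgClosed.splits _
  have hroots : ∀ a ∈ (P.map (algebraMap A K)).roots, a ∈ (algebraMap A K).range := by
    intro a ha
    have hroot : (P.map (algebraMap A K)).eval a = 0 := by
      have := (mem_roots'.mp ha).2
      exact this
    have hint : IsIntegral A a := ⟨P, hP, by rw [eval₂_eq_eval_map]; exact hroot⟩
    obtain ⟨y, hy⟩ := IsIntegrallyClosed.isIntegral_iff.mp hint
    exact ⟨y, hy⟩
  have hPs : P.Splits := Splits.of_splits_map_of_injective hinj hsplit hroots
  exact ⟨P.roots, hPs.eq_prod_roots_of_monic hP⟩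

end Fermat.Agent.DS.LiftV.ValSplit
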