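/-
Programme DS (S48), brick B5 (lifting), valuation-ring route (helper92).

Packaging of `Fermat.Agent.DS.LiftV.RepLift.exists_lift`:

* `exists_lift_GL`: over a local ring `R` in which every monic polynomial splits, every
  representation of a finite group `G` over the residue field, with `#G` invertible in the residue
  field, lifts (exactly, not only up to conjugation) to `GL_d(R)`;
* `exists_lift_of_finite_range`: the same for an arbitrary source group and a representation with
  finite image; the lift has the same kernel;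
* valuation subrings `A` of `ℂ` (any algebraically closed field): `zbarRes A : ℤbar →+* ResidueField A`,
  the characteristic of the residue field, existence of `A` above a given prime;
* `exists_complex_lift`: a representation `Γ → GL_d (ResidueField A)` with finite image of order
  prime to the residue characteristic lifts to `Γ → GL_d(ℂ)` with the same kernel, with
  characteristic polynomials having coefficients in `ℤbar` which reduce (through `zbarRes A`) to the
  characteristic polynomials of the given representation.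

This proves the brick `PrimeToEllLift` of the contract in the following strong form: no condition
on the group beyond `ℓ ∤ #G`, any dimension, provided the assembly chooses the residue field
`k := ResidueField A` and `φ := zbarRes A` (allowed, since the contract `C0` quantifies over all `k, φ`).
-/
import Mathlib
import Fermat.Agent.DS.LiftV.RepLift
import Fermat.Agent.DS.LiftV.ValSplit

set_option autoImplicit false

open Polynomial Matrix IsLocalRing

namespace Fermat.Agent.DS.LiftV.Main

open Fermat.Agent.DS.LiftV.IdemLift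

local notation "ℤbar" => integralClosure ℤ ℂ

section GLform

variable {R : Type*} [CommRing R] [IsLocalRing R] {d : ℕ}

/-- `GL` form of the lifting theorem for a finite group. -/
theorem exists_lift_GL {G : Type*} [Group G] [Finite G] (hR : MonicSplits R)
    (hG : (Nat.card G : ResidueField R) ≠ 0) (r : G →* GL (Fin d) (ResidueField R)) :
    ∃ ρ : G →* GL (Fin d) R, ∀ g, Matrix.GeneralLinearGroup.map (residue R) (ρ g) = r g := by
  classical
  have := Fintype.ofFinite G
  have hunit : IsUnit (Fintype.card G : R) := by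
    rw [← residue_ne_zero_iff_isUnit, map_natCast, ← Nat.card_eq_fintype_card]
    exact hG
  let rbar : G →* Matrix (Fin d) (Fin d) (ResidueField R) := (Units.coeHom _).comp r
  obtain ⟨ρ0, hρ0⟩ := RepLift.exists_lift hR hunit rbar
  refine ⟨ρ0.toHomUnits, fun g => ?_⟩
  apply Units.ext
  ext i j
  rw [Matrix.GeneralLinearGroup.map_apply]
  have h := congrFun (congrFun (hρ0 g) i) j
  rw [Matrix.map_apply] at h
  exact h

/-- Lifting a representation with finite image (arbitrary source group): the lift has the same
kernel. -/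
theorem exists_lift_of_finite_range {Γ : Type*} [Group Γ] (hR : MonicSplits R)
    (r : Γ →* GL (Fin d) (ResidueField R)) [Finite r.range]
    (hG : (Nat.card r.range : ResidueField R) ≠ 0) :
    ∃ ρ : Γ →* GL (Fin d) R,
      (∀ γ, Matrix.GeneralLinearGroup.map (residue R) (ρ γ) = r γ) ∧ ∀ γ, ρ γ = 1 ↔ r γ = 1 := by
  obtain ⟨ρ0, hρ0⟩ := exists_lift_GL hR hG r.range.subtype
  have hmain : ∀ γ, Matrix.GeneralLinearGroup.map (residue R) ((ρ0.comp r.rangeRestrict) γ) = r γ :=
    fun γ => hρ0 (r.rangeRestrict γ)
  refine ⟨ρ0.comp r.rangeRestrict, hmain, fun γ => ⟨fun h => ?_, fun h => ?_⟩⟩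
  · rw [← hmain γ, h, map_one]
  · have h1 : r.rangeRestrict γ = 1 := Subtype.ext h
    rw [MonoidHom.comp_apply, h1, map_one]

end GLform

section valuationSubring

variable {K : Type*} [Field K]

/-- Above every prime number there is a valuation subring of a field of characteristic zero. -/
theorem exists_valuationSubring_natCast_mem_nonunits [CharZero K] (ℓ : ℕ) (hℓ : ℓ.Prime) :
    ∃ A : ValuationSubring K, (ℓ : K) ∈ A.nonunits := by
  let B : Subring K := (Int.castRingHom K).range
  let a : B := ⟨(ℓ : K), ⟨(ℓ : ℤ), by simp⟩⟩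
  have hI : Ideal.span {a} ≠ ⊤ := by
    intro htop
    rw [Ideal.span_singleton_eq_top] at htop
    obtain ⟨⟨c, n, hn⟩, hc⟩ := htop.exists_right_inv
    have h1 : (ℓ : K) * c = 1 := congrArg Subtype.val hc
    rw [← hn] at h1
    have h2 : ((ℓ : ℤ) * n : ℤ) = 1 := by
      have : (((ℓ : ℤ) * n : ℤ) : K) = ((1 : ℤ) : K) := by
        push_cast
        simpa using h1
      exact Int.cast_injective this
    have h3 : (ℓ : ℤ) ∣ 1 := ⟨n, h2.symm⟩
    exact (Nat.prime_iff_prime_int.mp hℓ).not_dvd_one h3
  obtain ⟨V, -, hV⟩ := Ideal.image_subset_nonunits_valuationSubring _ hI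
  exact ⟨V, hV ⟨a, Ideal.subset_span rfl, rfl⟩⟩

/-- The residue field of a valuation subring above `ℓ` has characteristic `ℓ`. -/
theorem charP_residueField (A : ValuationSubring K) (ℓ : ℕ) (hℓ : ℓ.Prime)
    (h : (ℓ : K) ∈ A.nonunits) : CharP (ResidueField A) ℓ := by
  have h0 : ((ℓ : ℕ) : ResidueField A) = 0 := by
    have h1 : ((ℓ : A) : K) ∈ A.nonunits := by simpa using h
    have h2 : (ℓ : A) ∈ maximalIdeal A := (ValuationSubring.coe_mem_nonunits_iff).mp h1
    have h3 : residue A (ℓ : A) = 0 := (residue_eq_zero_iff _).mpr h2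
    simpa using h3
  obtain ⟨p, hp⟩ := CharP.exists (ResidueField A)
  have hdvd : p ∣ ℓ := (CharP.cast_eq_zero_iff (ResidueField A) p ℓ).mp h0
  rcases (Nat.dvd_prime hℓ).mp hdvd with h1 | h1
  · exact absurd h1 (CharP.char_ne_one (ResidueField A) p)
  · rwa [← h1]

end valuationSubring

section complex

variable (A : ValuationSubring ℂ)

/-- Algebraic integers lie in every valuation subring. -/
theorem mem_of_isIntegral {x : ℂ} (hx : IsIntegral ℤ x) : x ∈ A := by
  have h1 : IsIntegral A x := hx.tower_top
  obtain ⟨y, hy⟩ := IsIntegrallyClosed.isIntegral_iff.mp h1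
  rw [← hy]
  exact y.2

/-- The inclusion of the algebraic integers in a valuation subring of `ℂ`. -/
noncomputable def zbarIncl : ℤbar →+* A :=
  ((integralClosure ℤ ℂ).val.toRingHom).codRestrict A fun x => mem_of_isIntegral A x.2

@[simp] theorem coe_zbarIncl (x : ℤbar) : ((zbarIncl A x : A) : ℂ) = (x : ℂ) := rfl

/-- Reduction of algebraic integers modulo the maximal ideal of a valuation subring of `ℂ`. -/
noncomputable def zbarRes : ℤbar →+* ResidueField A := (residue A).comp (zbarIncl A)

theorem zbarRes_apply (x : ℤbar) : zbarRes A x = residue A (zbarIncl A x) := rfl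

/-- Trace and determinant of a complex matrix of finite order are algebraic integers. -/
theorem isIntegral_trace_det_of_pow_eq_one {d : ℕ} (M : Matrix (Fin d) (Fin d) ℂ) (m : ℕ)
    (hm : 0 < m) (hM : M ^ m = 1) : IsIntegral ℤ M.trace ∧ IsIntegral ℤ M.det := by
  have hroot : ∀ μ ∈ M.charpoly.roots, IsIntegral ℤ μ := by
    intro μ hμ
    have hspec : μ ∈ spectrum ℂ M :=
      Matrix.mem_spectrum_of_isRoot_charpoly (isRoot_of_mem_roots hμ)
    have hpow : μ ^ m ∈ spectrum ℂ (M ^ m) := spectrum.pow_mem_pow M m hspec
    rw [hM, spectrum.mem_iff] at hpow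
    have h1 : μ ^ m = 1 := by
      by_contra hne
      apply hpow
      have h2 : algebraMap ℂ (Matrix (Fin d) (Fin d) ℂ) (μ ^ m) - 1 =
          algebraMap ℂ (Matrix (Fin d) (Fin d) ℂ) (μ ^ m - 1) := by
        rw [map_sub, map_one]
      rw [h2]
      exact (isUnit_iff_ne_zero.mpr (sub_ne_zero.mpr hne)).map _
    exact IsIntegral.of_pow hm (by rw [h1]; exact isIntegral_one)
  constructor
  · rw [Matrix.trace_eq_sum_roots_charpoly]
    exact IsIntegral.multiset_sum hroot
  · rw [Matrix.det_eq_prod_roots_charpoly]
    exact IsIntegral.multiset_prod hroot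

variable {A}

/-- **Lifting to `ℂ`** (any dimension).  A representation over the residue field of a valuation
subring `A` of `ℂ`, with finite image of order prime to the residue characteristic, lifts to
`GL_d(A)`; the lift has the same kernel. -/
theorem exists_lift_valuationSubring {Γ : Type*} [Group Γ] {d : ℕ}
    (r : Γ →* GL (Fin d) (ResidueField A)) [Finite r.range]
    (hG : (Nat.card r.range : ResidueField A) ≠ 0) :
    ∃ ρ : Γ →* GL (Fin d) A,
      (∀ γ, Matrix.GeneralLinearGroup.map (residue A) (ρ γ) = r γ) ∧ ∀ γ, ρ γ = 1 ↔ r γ = 1 :=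
  exists_lift_of_finite_range (ValSplit.monicSplits_valuationSubring A) r hG

/-- **Lifting to `ℂ`, trace/determinant form** (any dimension). -/
theorem exists_complex_lift {Γ : Type*} [Group Γ] {d : ℕ}
    (r : Γ →* GL (Fin d) (ResidueField A)) [Finite r.range]
    (hG : (Nat.card r.range : ResidueField A) ≠ 0) :
    ∃ R : Γ →* GL (Fin d) ℂ, (∀ γ, R γ = 1 ↔ r γ = 1) ∧
      ∀ γ, ∃ t e : ℤbar,
        ((R γ : GL (Fin d) ℂ) : Matrix (Fin d) (Fin d) ℂ).trace = (t : ℂ) ∧
        ((R γ : GL (Fin d) ℂ) : Matrix (Fin d) (Fin d) ℂ).det = (e : ℂ) ∧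
        ((r γ : GL (Fin d) (ResidueField A)) : Matrix (Fin d) (Fin d) (ResidueField A)).trace =
          zbarRes A t ∧
        ((r γ : GL (Fin d) (ResidueField A)) : Matrix (Fin d) (Fin d) (ResidueField A)).det =
          zbarRes A e := by
  obtain ⟨ρ, hρ, hker⟩ := exists_lift_valuationSubring r hG
  let R : Γ →* GL (Fin d) ℂ := (Matrix.GeneralLinearGroup.map A.subtype).comp ρ
  have hRval : ∀ γ, ((R γ : GL (Fin d) ℂ) : Matrix (Fin d) (Fin d) ℂ) =
      ((ρ γ : GL (Fin d) A) : Matrix (Fin d) (Fin d) A).map A.subtype := fun γ => rfl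
  have hrval : ∀ γ, ((r γ : GL (Fin d) (ResidueField A)) : Matrix (Fin d) (Fin d) (ResidueField A)) =
      ((ρ γ : GL (Fin d) A) : Matrix (Fin d) (Fin d) A).map (residue A) := fun γ => by
    rw [← hρ γ]
    rfl
  have hinj : Function.Injective (Matrix.GeneralLinearGroup.map (n := Fin d) A.subtype) := by
    intro x y hxy
    apply Units.ext
    ext i j
    have h := congrArg (fun z : GL (Fin d) ℂ => (z : Matrix (Fin d) (Fin d) ℂ) i j) hxy
    simp only [Matrix.GeneralLinearGroup.map_apply] at h
    exact h
  refine ⟨R, fun γ => ?_, fun γ => ?_⟩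
  · rw [← hker γ]
    constructor
    · intro h
      apply hinj
      rw [map_one]
      exact h
    · intro h
      show Matrix.GeneralLinearGroup.map A.subtype (ρ γ) = 1
      rw [h, map_one]
  · -- finite order
    have hfin : ∃ m : ℕ, 0 < m ∧ (R γ) ^ m = 1 := by
      have hfo : IsOfFinOrder (r.rangeRestrict γ) := isOfFinOrder_of_finite _
      obtain ⟨m, hm, hpow⟩ := hfo.exists_pow_eq_one
      refine ⟨m, hm, ?_⟩
      have h1 : (r γ) ^ m = 1 := by
        have := congrArg Subtype.val hpow
        simpa using this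
      have h2 : r (γ ^ m) = 1 := by rw [map_pow, h1]
      have h3 : ρ (γ ^ m) = 1 := (hker _).mpr h2
      rw [← map_pow]
      show Matrix.GeneralLinearGroup.map A.subtype (ρ (γ ^ m)) = 1
      rw [h3, map_one]
    obtain ⟨m, hm, hpow⟩ := hfin
    have hpow' : ((R γ : GL (Fin d) ℂ) : Matrix (Fin d) (Fin d) ℂ) ^ m = 1 := by
      rw [← Units.val_pow_eq_pow_val, hpow, Units.val_one]
    obtain ⟨htr, hdet⟩ := isIntegral_trace_det_of_pow_eq_one _ m hm hpow'
    refine ⟨⟨_, htr⟩, ⟨_, hdet⟩, rfl, rfl, ?_, ?_⟩
    · rw [hrval, zbarRes_apply]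
      have h1 : zbarIncl A ⟨_, htr⟩ = ((ρ γ : GL (Fin d) A) : Matrix (Fin d) (Fin d) A).trace := by
        apply Subtype.ext
        rw [coe_zbarIncl]
        show ((R γ : GL (Fin d) ℂ) : Matrix (Fin d) (Fin d) ℂ).trace = _
        rw [hRval]
        simp only [Matrix.trace, Matrix.diag_apply, Matrix.map_apply]
        rw [← map_sum]
        rfl
      rw [h1]
      simp only [Matrix.trace, Matrix.diag_apply, Matrix.map_apply, map_sum]
    · rw [hrval, zbarRes_apply]
      have h1 : zbarIncl A ⟨_, hdet⟩ = ((ρ γ : GL (Fin d) A) : Matrix (Fin d) (Fin d) A).det := by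
        apply Subtype.ext
        rw [coe_zbarIncl]
        show ((R γ : GL (Fin d) ℂ) : Matrix (Fin d) (Fin d) ℂ).det = _
        rw [hRval]
        exact (RingHom.map_det A.subtype _).symm
      rw [h1]
      exact (RingHom.map_det (residue A) _).symm

end complex

end Fermat.Agent.DS.LiftV.Main
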